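/-
P-SS row 652 (SSH-11, helper47): the GAUSS CONDITION for
`h_a = (U - σ²a)(U - a)/(U - σa)²`.

Observation: if `σ U = U` then `h_a` is the SECOND DIFFERENCE `σ²(f) f / σ(f)²` of `f = U - a`,
so the Gauss condition at a valuation ring `V` on whose residue field `σ` acts trivially follows
from `Fermat.Agent.H71.SS.secondDiff_sub_one_mem_nonunits`.  We also give the two cases of the
blueprint in pure valuation language (no automorphism):

* `gaussCond_caseA` : `U - a` a `V`-unit, `a' ≡ a ≡ a''`  ⟹  `h ≡ 1`;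
* `gaussCond_caseB` : `v(X) < v(a)`, `v(a) = v(a') = v(a'')`, `a'' a / a'² ≡ 1`  ⟹  `h ≡ 1`;

and the passage from "`≡ 1` modulo the maximal ideals of `V₁`, `V₂`" to
"`∈ C` and `≡ 1` modulo `ϖ C`" when `C = V₁ ∩ V₂` (SSH-4) and `ϖ` generates both maximal ideals.
-/
import Mathlib
import Fermat.Agent.H71.SS.SecondDiff
import Fermat.Agent.H22.ES.KLSetting

set_option autoImplicit false

namespace Fermat.Agent.H47.SS

open Fermat.Agent.H71.SS

variable {F : Type*} [Field F]

/-- the function `h = (U - a'')(U - a)/(U - a')²` -/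
noncomputable def hFun (U a a' a'' : F) : F := (U - a'') * (U - a) / (U - a') ^ 2

/-- elements congruent to `1` lie in `V` -/
theorem mem_of_sub_one_mem_nonunits (V : ValuationSubring F) {x : F}
    (hx : x - 1 ∈ V.nonunits) : x ∈ V := by
  rw [← V.valuation_le_one_iff, valuation_eq_one_of_sub_one_mem_nonunits V hx]

/-- **Case A.** `U - a` is a `V`-unit and `a' ≡ a ≡ a''` modulo the maximal ideal. -/
theorem gaussCond_caseA (V : ValuationSubring F) {U a a' a'' : F}
    (hu : V.valuation (U - a) = 1) (h' : a' - a ∈ V.nonunits) (h'' : a'' - a ∈ V.nonunits) :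
    hFun U a a' a'' - 1 ∈ V.nonunits := by
  have hu0 : U - a ≠ 0 := by
    intro h0
    rw [h0, map_zero] at hu
    exact zero_ne_one hu
  have key : ∀ b : F, b - a ∈ V.nonunits → (U - b) / (U - a) - 1 ∈ V.nonunits := by
    intro b hb
    have : (U - b) / (U - a) - 1 = -((b - a) * (U - a)⁻¹) := by
      field_simp
      ring
    rw [this, V.mem_nonunits_iff, Valuation.map_neg, map_mul, map_inv₀, hu, inv_one, mul_one]
    exact V.mem_nonunits_iff.1 hb
  have h1 := key a' h'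
  have h2 := key a'' h''
  have h3 := div_sub_one_mem_nonunits V h2 (pow_sub_one_mem_nonunits V h1 2 (by norm_num))
  have hv1 := valuation_eq_one_of_sub_one_mem_nonunits V h1
  have hne : U - a' ≠ 0 := by
    intro h0
    rw [h0, zero_div, map_zero] at hv1
    exact zero_ne_one hv1
  have : hFun U a a' a'' = (U - a'') / (U - a) / ((U - a') / (U - a)) ^ 2 := by
    unfold hFun
    field_simp
  rw [this]
  exact h3

/-- **Case B.** `v(X) < v(a)`, `v(a') = v(a) = v(a'')` and the constants satisfy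
`a'' a / a'² ≡ 1`. -/
theorem gaussCond_caseB (V : ValuationSubring F) {X a a' a'' : F}
    (hX : V.valuation X < V.valuation a) (hv' : V.valuation a' = V.valuation a)
    (hv'' : V.valuation a'' = V.valuation a) (hsd : a'' * a / a' ^ 2 - 1 ∈ V.nonunits) :
    hFun X a a' a'' - 1 ∈ V.nonunits := by
  have ha0 : a ≠ 0 := by
    intro h0
    rw [h0, map_zero] at hX
    exact not_lt_zero hX
  have hva : V.valuation a ≠ 0 := (Valuation.ne_zero_iff _).2 ha0
  have key : ∀ b : F, V.valuation b = V.valuation a → (X - b) / (-b) - 1 ∈ V.nonunits := by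
    intro b hb
    have hb0 : b ≠ 0 := by
      intro h0
      rw [h0, map_zero] at hb
      exact hva hb.symm
    have : (X - b) / (-b) - 1 = -(X / b) := by
      field_simp
      ring
    rw [this, V.mem_nonunits_iff, Valuation.map_neg, map_div₀, hb]
    exact (div_lt_one₀ (zero_lt_iff.2 hva)).2 hX
  have h0 := key a rfl
  have h1 := key a' hv'
  have h2 := key a'' hv''
  have ha'0 : a' ≠ 0 := by
    intro h0
    rw [h0, map_zero] at hv'
    exact hva hv'.symm
  have ha''0 : a'' ≠ 0 := by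
    intro h0
    rw [h0, map_zero] at hv''
    exact hva hv''.symm
  have hne : X - a' ≠ 0 := by
    intro h0
    have := valuation_eq_one_of_sub_one_mem_nonunits V h1
    rw [h0, zero_div, map_zero] at this
    exact zero_ne_one this
  have h3 := mul_sub_one_mem_nonunits V hsd
    (div_sub_one_mem_nonunits V (mul_sub_one_mem_nonunits V h2 h0)
      (pow_sub_one_mem_nonunits V h1 2 (by norm_num)))
  have : hFun X a a' a'' = a'' * a / a' ^ 2 *
      ((X - a'') / (-a'') * ((X - a) / (-a)) / ((X - a') / (-a')) ^ 2) := by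
    unfold hFun
    field_simp
  rw [this]
  exact h3

/-- If `σ U = U`, then `h_a` is the second difference of `f = U - a`. -/
theorem hFun_eq_secondDiff (σ : F ≃+* F) {U : F} (hU : σ U = U) (a : F) :
    hFun U a (σ a) (σ (σ a)) = σ (σ (U - a)) * (U - a) / (σ (U - a) * σ (U - a)) := by
  unfold hFun
  simp only [map_sub, hU, pow_two]

/-- **Gauss condition at one valuation ring**: `σ` trivial on the residue field of `V` and
valuation preserving, `σ U = U`, `U ≠ a`. -/
theorem gaussCond_of_secondDiff (V : ValuationSubring F) (σ : F ≃+* F)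
    (hσ : ∀ x ∈ V, σ x - x ∈ V.nonunits)
    (hσv : ∀ x : F, V.valuation (σ x) = V.valuation x)
    {U : F} (hU : σ U = U) {a : F} (hUa : U ≠ a) :
    hFun U a (σ a) (σ (σ a)) - 1 ∈ V.nonunits := by
  rw [hFun_eq_secondDiff σ hU a]
  exact secondDiff_sub_one_mem_nonunits V σ σ hσ (sub_ne_zero.2 hUa) (hσv _)

/-- From the two Gauss valuations to the Gauss closure: if `C = V₁ ∩ V₂` and `ϖ` generates the
maximal ideals of `V₁` and `V₂`, then `h ≡ 1` modulo both maximal ideals implies `h ∈ C` and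
`h - 1 ∈ ϖ C`. -/
theorem gaussClosure_of_two (V₁ V₂ : ValuationSubring F) (C : Set F)
    (hC : ∀ z : F, z ∈ C ↔ z ∈ V₁ ∧ z ∈ V₂) (π : F) (hπ0 : π ≠ 0)
    (hπ₁ : ∀ x ∈ V₁.nonunits, x / π ∈ V₁) (hπ₂ : ∀ x ∈ V₂.nonunits, x / π ∈ V₂)
    {h : F} (h₁ : h - 1 ∈ V₁.nonunits) (h₂ : h - 1 ∈ V₂.nonunits) :
    h ∈ C ∧ ∃ c ∈ C, h - 1 = π * c := by
  refine ⟨(hC h).2 ⟨mem_of_sub_one_mem_nonunits V₁ h₁, mem_of_sub_one_mem_nonunits V₂ h₂⟩,
    (h - 1) / π, (hC _).2 ⟨hπ₁ _ h₁, hπ₂ _ h₂⟩, ?_⟩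
  field_simp

/-- **SSH-11, Gauss-closure form.**  `A`-algebra `E`, `ϖ ∈ A`, chart coordinate `x`; assume
(SSH-4) that the Gauss closure `C(x)` is the intersection of two valuation rings `V₁, V₂` whose
maximal ideals are generated by `ϖ`, and that `σ` acts trivially on both residue fields and
preserves both valuations.  Then for `U` fixed by `σ` and `a ≠ U`:
`h_a ∈ C(x)` and `h_a - 1 ∈ ϖ C(x)`. -/
theorem gaussCond_gaussClosure (A : Type) [CommRing A] (E : Type) [Field E] [Algebra A E]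
    (ϖ : A) (x : E) (V₁ V₂ : ValuationSubring E)
    (hC : ∀ z : E, z ∈ Fermat.Agent.H22.KL.gaussClosure A E ϖ x ↔ z ∈ V₁ ∧ z ∈ V₂)
    (hπ0 : algebraMap A E ϖ ≠ 0)
    (hπ₁ : ∀ z ∈ V₁.nonunits, z / algebraMap A E ϖ ∈ V₁)
    (hπ₂ : ∀ z ∈ V₂.nonunits, z / algebraMap A E ϖ ∈ V₂)
    (σ : E ≃+* E)
    (hσ₁ : ∀ z ∈ V₁, σ z - z ∈ V₁.nonunits) (hσ₂ : ∀ z ∈ V₂, σ z - z ∈ V₂.nonunits)
    (hv₁ : ∀ z : E, V₁.valuation (σ z) = V₁.valuation z)
    (hv₂ : ∀ z : E, V₂.valuation (σ z) = V₂.valuation z)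
    {U : E} (hU : σ U = U) {a : E} (hUa : U ≠ a) :
    hFun U a (σ a) (σ (σ a)) ∈ Fermat.Agent.H22.KL.gaussClosure A E ϖ x ∧
      Fermat.Agent.H22.KL.PiDvdSet A E ϖ (Fermat.Agent.H22.KL.gaussClosure A E ϖ x)
        (hFun U a (σ a) (σ (σ a)) - 1) :=
  gaussClosure_of_two V₁ V₂ _ hC _ hπ0 hπ₁ hπ₂
    (gaussCond_of_secondDiff V₁ σ hσ₁ hv₁ hU hUa)
    (gaussCond_of_secondDiff V₂ σ hσ₂ hv₂ hU hUa)

end Fermat.Agent.H47.SS
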